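/-
GATE-L-S58 / GE/E6 (helper55): EC-FROB-1, coordinate facts for a Frobenius element.

`A` a valuation subring of `L`, `σ` with `A.IsFrobeniusAt σ q` (prelude sense):
* `σ` preserves `A` and acts on residues by `x ↦ x ^ q`;
* `A.LiesOverPrime l` (`l` prime) makes the residue field of characteristic `l`;
* the action on affine points is coordinatewise.
-/
import Mathlib
import Fermat.Prelude.Def_EllipticCurve_FrobeniusTrace
import Fermat.Agent.S05.Inertia

set_option autoImplicit false

namespace Fermat.Agent.GE.E6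

open ValuationSubring

section Residue

variable {K L : Type*} [Field K] [Field L] [Algebra K L]

theorem apply_mem_of_isFrobeniusAt {A : ValuationSubring L} {σ : L ≃ₐ[K] L} {q : ℕ}
    (hσ : A.IsFrobeniusAt σ q) {x : L} (hx : x ∈ A) : σ x ∈ A :=
  S05.apply_mem_of_mem_decompositionSubgroup hσ.mem_decompositionSubgroup hx

theorem apply_mem_iff_of_isFrobeniusAt {A : ValuationSubring L} {σ : L ≃ₐ[K] L} {q : ℕ}
    (hσ : A.IsFrobeniusAt σ q) (x : L) : σ x ∈ A ↔ x ∈ A :=
  ⟨S05.mem_of_apply_mem_of_mem_decompositionSubgroup hσ.mem_decompositionSubgroup,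
    apply_mem_of_isFrobeniusAt hσ⟩

/-- a Frobenius element acts on residues by the `q`-th power. -/
theorem residue_apply_of_isFrobeniusAt {A : ValuationSubring L} {σ : L ≃ₐ[K] L} {q : ℕ}
    (hσ : A.IsFrobeniusAt σ q) {x : L} (hx : x ∈ A) :
    IsLocalRing.residue A ⟨σ x, apply_mem_of_isFrobeniusAt hσ hx⟩ =
      (IsLocalRing.residue A ⟨x, hx⟩) ^ q := by
  have h1 := hσ.smul_residue_eq (IsLocalRing.residue A ⟨x, hx⟩)
  rw [← IsLocalRing.ResidueField.residue_smul] at h1
  exact h1

/-- the residue field of a valuation subring lying over the prime `l` has characteristic `l`. -/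
theorem charP_residueField_of_liesOverPrime {A : ValuationSubring L} {l : ℕ} (hl : l.Prime)
    (hA : A.LiesOverPrime l) : CharP (IsLocalRing.ResidueField A) l := by
  have hlA : (l : L) ∈ A := A.nonunits_subset hA
  have h0 : ((l : ℕ) : IsLocalRing.ResidueField A) = 0 := by
    have h1 : IsLocalRing.residue A ⟨(l : L), hlA⟩ = 0 := by
      rw [IsLocalRing.residue_eq_zero_iff]
      obtain ⟨h, hm⟩ := (ValuationSubring.mem_nonunits_iff_exists_mem_maximalIdeal).1 hA
      exact hm
    have h2 : (⟨(l : L), hlA⟩ : A) = ((l : ℕ) : A) := Subtype.ext (by simp)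
    rw [h2, map_natCast] at h1
    exact h1
  exact (CharP.charP_iff_prime_eq_zero hl).2 h0

end Residue

section Points

open WeierstrassCurve WeierstrassCurve.Affine

variable {R : Type*} {S : Type*} {K : Type*} [CommRing R] [CommRing S] [Field K]
  [DecidableEq K] {W' : Affine R} [Algebra R S] [Algebra R K] [Algebra S K]
  [IsScalarTower R S K]

theorem smul_zero_point (σ : K ≃ₐ[S] K) : σ • (0 : (W'⁄K).Point) = 0 := rfl

theorem smul_some (σ : K ≃ₐ[S] K) {x y : K} (h : (W'⁄K).Nonsingular x y) :
    ∃ h' : (W'⁄K).Nonsingular (σ x) (σ y),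
      σ • (Point.some x y h : (W'⁄K).Point) = Point.some (σ x) (σ y) h' := by
  exact ⟨(W'.baseChange_nonsingular (f := σ.toAlgHom) σ.toAlgHom.injective x y).mpr h, rfl⟩

end Points

end Fermat.Agent.GE.E6
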