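/-
GATE-L-S58 / GE/E6 (helper55): EC-FROB-1, abstract transfer.

If `red : Pt →+ Ptκ` intertwines `σ` and `φ`, `φ² − aφ + l = 0` on `Ptκ`, and `red` is injective on
`m`-torsion, then `σ² − aσ + l = 0` on the `m`-torsion of `Pt`.
-/
import Mathlib

set_option autoImplicit false

namespace Fermat.Agent.GE.E6

/-- abstract transfer of a quadratic relation along a reduction map injective on `m`-torsion. -/
theorem quadratic_of_red {Pt Ptκ : Type*} [AddCommGroup Pt] [AddCommGroup Ptκ]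
    (red : Pt →+ Ptκ) (σ : Pt →+ Pt) (φ : Ptκ →+ Ptκ) (hσφ : ∀ P, red (σ P) = φ (red P))
    (a l : ℤ) (hφ : ∀ Q, φ (φ Q) - a • φ Q + l • Q = 0)
    (m : ℕ) (hker : ∀ P, red P = 0 → m • P = 0 → P = 0) (P : Pt) (hP : m • P = 0) :
    σ (σ P) - a • σ P + l • P = 0 := by
  apply hker
  · rw [map_add, map_sub, map_zsmul, map_zsmul, hσφ, hσφ]
    exact hφ (red P)
  · rw [smul_add, smul_sub, smul_comm m a, smul_comm m l, ← map_nsmul, ← map_nsmul,
      hP, map_zero, map_zero, smul_zero, smul_zero, sub_zero, add_zero]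

/-- the same with the relation given only on the image of `red` and for `P` with `σ`-stable
torsion. -/
theorem quadratic_of_red' {Pt Ptκ : Type*} [AddCommGroup Pt] [AddCommGroup Ptκ]
    (red : Pt →+ Ptκ) (σ : Pt →+ Pt) (φ : Ptκ →+ Ptκ) (hσφ : ∀ P, red (σ P) = φ (red P))
    (a l : ℤ) (P : Pt) (hφ : φ (φ (red P)) - a • φ (red P) + l • red P = 0)
    (m : ℕ) (hker : ∀ Q, red Q = 0 → m • Q = 0 → Q = 0) (hP : m • P = 0) :
    σ (σ P) - a • σ P + l • P = 0 := by
  apply hker
  · rw [map_add, map_sub, map_zsmul, map_zsmul, hσφ, hσφ]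
    exact hφ
  · rw [smul_add, smul_sub, smul_comm m a, smul_comm m l, ← map_nsmul, ← map_nsmul,
      hP, map_zero, map_zero, smul_zero, smul_zero, sub_zero, add_zero]

end Fermat.Agent.GE.E6
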