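/-
GATE-L-S58 / GE/E6 (helper55): **EC-FROB-1**.

`W : WeierstrassCurve ℤ` with good reduction at the prime `l`, `A` a valuation subring of `ℚ̄` over
`l`, `σ` a Frobenius element at `A` (prelude `IsFrobeniusAt`), `l ∤ m`.  If the `l`-Frobenius `φ` of
the residue field `κ_A` satisfies `φ² − a_l φ + l = 0` on `W(κ_A)` (`FrobQuad`, = EC-FROB-0 of
helper91's graph at the field `κ_A`), then `σ² − a_l σ + l = 0` on `W(ℚ̄)[m]`.
Inputs: helper91 `GE/RedHom` (reduction homomorphism, injective on prime-to-`l` torsion,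
functorial), `GE/E6/Transfer`, `GE/E6/FrobCoord`.
-/
import Mathlib
import Fermat.Prelude.Def_EllipticCurve_FrobeniusTrace
import Fermat.Prelude.Def_FLTPrelim_Modularity
import Fermat.Agent.GE.RedHom
import Fermat.Agent.GE.E6.Transfer
import Fermat.Agent.GE.E6.FrobCoord

set_option autoImplicit false

namespace Fermat.Agent.GE.E6

open WeierstrassCurve WeierstrassCurve.Affine ValuationSubring

/-- the `l`-Frobenius of a ring of characteristic `l`, as a `ℤ`-algebra endomorphism. -/
noncomputable def frobInt (L : Type*) [CommRing L] (l : ℕ) [ExpChar L l] : L →ₐ[ℤ] L :=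
  (frobenius L l).toIntAlgHom

@[simp] theorem frobInt_apply (L : Type*) [CommRing L] (l : ℕ) [ExpChar L l] (x : L) :
    frobInt L l x = x ^ l := rfl

/-- **EC-FROB-0 at the field `L`**, stated on the base change to `L` of the integral model:
the `l`-Frobenius satisfies `φ² − a_l(W) φ + l = 0` on `W(L)`. -/
def FrobQuad (W : WeierstrassCurve ℤ) (l : ℕ) (L : Type*) [Field L] [DecidableEq L]
    [ExpChar L l] : Prop :=
  ∀ P : (W.toAffine⁄L).Point,
    Point.map (W' := W.toAffine) (frobInt L l) (Point.map (W' := W.toAffine) (frobInt L l) P) -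
      W.apOfModel l • Point.map (W' := W.toAffine) (frobInt L l) P + (l : ℤ) • P = 0

section NonUnits

variable {K : Type*} [Field K]

/-- a natural number prime to the residue characteristic is not in the maximal ideal. -/
theorem natCast_notMem_nonunits_of_not_dvd {A : ValuationSubring K} {l : ℕ} (hl : l.Prime)
    (hA : A.LiesOverPrime l) {m : ℕ} (hlm : ¬ l ∣ m) : (m : K) ∉ A.nonunits := by
  intro hm
  have hcop : Nat.Coprime l m := (Nat.Prime.coprime_iff_not_dvd hl).2 hlm
  have h1 : ((l : ℤ) : K) * ((Nat.gcdA l m : ℤ) : K) + ((m : ℤ) : K) * ((Nat.gcdB l m : ℤ) : K) =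
      1 := by
    have := Nat.gcd_eq_gcd_ab l m
    rw [hcop.gcd_eq_one] at this
    have h2 := congrArg (fun z : ℤ => (z : K)) this
    simp only [Int.cast_add, Int.cast_mul, Nat.cast_one, Int.cast_one] at h2
    exact h2.symm
  have hA' : ((l : ℤ) : K) ∈ A.nonunits := by
    have h0 : (l : K) ∈ A.nonunits := hA
    simpa using h0
  have hm' : ((m : ℤ) : K) ∈ A.nonunits := by simpa using hm
  have h3 : (1 : K) ∈ A.nonunits := by
    rw [← h1]
    exact S05.SameRed.nu_add A
      (S05.SameRed.nu_mul_left A hA' (intCast_mem A _))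
      (S05.SameRed.nu_mul_left A hm' (intCast_mem A _))
  exact ((ValuationSubring.mem_nonunits_iff A).1 h3).ne (map_one _)

end NonUnits

section Main

local notation "Qbar" => AlgebraicClosure ℚ

variable (W : WeierstrassCurve ℤ) (l : ℕ) [hl : Fact l.Prime]

/-- good reduction: the discriminant of the base change to a field of characteristic `l` is
nonzero. -/
theorem baseChange_Δ_ne_zero (hgood : W.IsGoodPrimeFor l) (L : Type*) [Field L] [CharP L l] :
    (W.baseChange L).Δ ≠ 0 := by
  rw [WeierstrassCurve.baseChange, WeierstrassCurve.map_Δ, eq_intCast, Ne,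
    CharP.intCast_eq_zero_iff L l]
  exact hgood

/-- a Galois automorphism as a `ℤ`-algebra endomorphism. -/
noncomputable def galInt (σ : Qbar ≃ₐ[ℚ] Qbar) : Qbar →ₐ[ℤ] Qbar :=
  (σ : Qbar →+* Qbar).toIntAlgHom

@[simp] theorem galInt_apply (σ : Qbar ≃ₐ[ℚ] Qbar) (x : Qbar) : galInt σ x = σ x := rfl

theorem map_galInt (σ : Qbar ≃ₐ[ℚ] Qbar) (P : (W.toAffine⁄Qbar).Point) :
    Point.map (W' := W.toAffine) (galInt σ) P = σ • P := by
  rcases P with _ | ⟨x, y, h⟩
  · rfl
  · rfl

/-- **EC-FROB-1**: `σ² − a_l(W) σ + l = 0` on `W(ℚ̄)[m]` for a Frobenius element `σ` at a place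
over the good prime `l ∤ m`, given EC-FROB-0 on the residue field. -/
theorem frobenius_quadratic_torsion (hgood : W.IsGoodPrimeFor l) (m : ℕ) (hlm : ¬ l ∣ m)
    (A : ValuationSubring Qbar) (hA : A.LiesOverPrime l)
    [DecidableEq (IsLocalRing.ResidueField A)] [ExpChar (IsLocalRing.ResidueField A) l]
    (hF : FrobQuad W l (IsLocalRing.ResidueField A))
    (σ : Qbar ≃ₐ[ℚ] Qbar) (hσ : A.IsFrobeniusAt σ l)
    (P : (W.toAffine⁄Qbar).Point) (hP : m • P = 0) :
    σ • σ • P - W.apOfModel l • σ • P + (l : ℤ) • P = 0 := by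
  haveI : CharP (IsLocalRing.ResidueField A) l :=
    charP_residueField_of_liesOverPrime hl.out hA
  letI : Algebra ℤ (IsLocalRing.ResidueField A) := Ring.toIntAlgebra _
  have hred : RedHom.IsRedOf A (W.baseChange Qbar)
      (W.baseChange (IsLocalRing.ResidueField A)) := by
    refine ⟨W.baseChange A, ?_, ?_⟩
    · rw [WeierstrassCurve.baseChange, WeierstrassCurve.baseChange, WeierstrassCurve.map_map]
      exact congrArg W.map (RingHom.ext_int _ _)
    · rw [WeierstrassCurve.baseChange, WeierstrassCurve.baseChange, WeierstrassCurve.map_map]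
      exact congrArg W.map (RingHom.ext_int _ _)
  have hΔ : (W.baseChange (IsLocalRing.ResidueField A)).Δ ≠ 0 :=
    baseChange_Δ_ne_zero W l hgood _
  have hm : ((m : ℕ) : Qbar) ∉ A.nonunits := natCast_notMem_nonunits_of_not_dvd hl.out hA hlm
  have hcomm : ∀ Q : (W.toAffine⁄Qbar).Point,
      RedHom.redHom hred hΔ (Point.map (W' := W.toAffine) (galInt σ) Q) =
        Point.map (W' := W.toAffine) (frobInt (IsLocalRing.ResidueField A) l)
          (RedHom.redHom hred hΔ Q) := by
    intro Q
    exact RedHom.red_map (S := ℤ) W.toAffine hred hΔ (galInt σ)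
      (frobInt (IsLocalRing.ResidueField A) l)
      (fun x => apply_mem_iff_of_isFrobeniusAt hσ x)
      (fun x hx hfx => (residue_apply_of_isFrobeniusAt hσ hx).symm) Q
  have key := quadratic_of_red' (RedHom.redHom hred hΔ)
    (Point.map (W' := W.toAffine) (galInt σ))
    (Point.map (W' := W.toAffine) (frobInt (IsLocalRing.ResidueField A) l)) hcomm
    (W.apOfModel l) (l : ℤ) P (hF _) m
    (fun Q hQ hmQ => RedHom.eq_zero_of_red_eq_zero_of_nsmul hred hΔ hm hmQ hQ) hP
  rw [map_galInt, map_galInt] at key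
  exact key

end Main

end Fermat.Agent.GE.E6
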