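/-
GATE-L-S58 / GE/E6 (helper55): transport of points along an equality of Weierstrass curves
(e.g. `(W.map (Int.castRingHom ℚ))⁄ℚ̄ = W⁄ℚ̄`, `(W.reductionMod l)⁄L = W⁄L`), compatible with
`Point.map`.
-/
import Mathlib

set_option autoImplicit false

namespace Fermat.Agent.GE.E6

open WeierstrassCurve WeierstrassCurve.Affine

section Congr

variable {F : Type*} [Field F] [DecidableEq F]

/-- the additive equivalence between the point groups of two equal Weierstrass curves. -/
noncomputable def pointCongr {V₁ V₂ : WeierstrassCurve F} (h : V₁ = V₂) :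
    V₁.toAffine.Point ≃+ V₂.toAffine.Point :=
  h ▸ AddEquiv.refl _

theorem pointCongr_some {V₁ V₂ : WeierstrassCurve F} (h : V₁ = V₂) {x y : F}
    (hxy : V₁.toAffine.Nonsingular x y) :
    ∃ hxy' : V₂.toAffine.Nonsingular x y,
      pointCongr h (Point.some x y hxy) = Point.some x y hxy' := by
  subst h
  exact ⟨hxy, rfl⟩

theorem pointCongr_zero {V₁ V₂ : WeierstrassCurve F} (h : V₁ = V₂) :
    pointCongr h (0 : V₁.toAffine.Point) = 0 := map_zero _

theorem some_congr' {V : Affine F} {x x' y y' : F} (hx : x = x') (hy : y = y')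
    (h : V.Nonsingular x y) (h' : V.Nonsingular x' y') :
    Point.some x y h = Point.some x' y' h' := by
  subst hx; subst hy; rfl

end Congr

section Map

variable {R₁ S₁ R₂ S₂ F K : Type*} [CommRing R₁] [CommRing S₁] [CommRing R₂] [CommRing S₂]
  [Field F] [Field K] [DecidableEq F] [DecidableEq K]
  [Algebra R₁ S₁] [Algebra R₁ F] [Algebra S₁ F] [IsScalarTower R₁ S₁ F]
  [Algebra R₁ K] [Algebra S₁ K] [IsScalarTower R₁ S₁ K]
  [Algebra R₂ S₂] [Algebra R₂ F] [Algebra S₂ F] [IsScalarTower R₂ S₂ F]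
  [Algebra R₂ K] [Algebra S₂ K] [IsScalarTower R₂ S₂ K]
  {W₁ : Affine R₁} {W₂ : Affine R₂}

/-- `pointCongr` intertwines `Point.map` along two algebra maps with the same underlying
function. -/
theorem pointCongr_map (hF : W₁.baseChange F = W₂.baseChange F)
    (hK : W₁.baseChange K = W₂.baseChange K) (f₁ : F →ₐ[S₁] K) (f₂ : F →ₐ[S₂] K)
    (hf : ∀ x, f₁ x = f₂ x) (P : (W₁⁄F).Point) :
    pointCongr hK (Point.map (W' := W₁) f₁ P) =
      Point.map (W' := W₂) f₂ (pointCongr hF P) := by
  rcases P with _ | ⟨x, y, h⟩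
  · have h1 : (Point.zero : (W₁⁄F).Point) = 0 := rfl
    rw [h1, map_zero, map_zero, map_zero, map_zero]
  · obtain ⟨h', e'⟩ := pointCongr_some hF h
    rw [e', Point.map_some, Point.map_some]
    obtain ⟨h'', e''⟩ := pointCongr_some hK
      ((W₁.baseChange_nonsingular f₁.injective ..).mpr h)
    rw [e'']
    exact some_congr' (hf x) (hf y) _ _

end Map

end Fermat.Agent.GE.E6
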