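/-
GATE-L-S58 / GE/E6 (helper55): EC-FROB-1 on the point group of the `ℚ`-model
`(W.map (Int.castRingHom ℚ))⁄ℚ̄` (the group used by the prelude `ModRepIsIrreducible` /
`galoisRepModuleEnd`), and in `Module.End` form on the `m`-torsion.
-/
import Mathlib
import Fermat.Agent.GE.E6.Final
import Fermat.Agent.GE.E6.PointCongr

set_option autoImplicit false

namespace Fermat.Agent.GE.E6

open WeierstrassCurve WeierstrassCurve.Affine ValuationSubring

local notation "Qbar" => AlgebraicClosure ℚ

variable (W : WeierstrassCurve ℤ) (l : ℕ) [hl : Fact l.Prime]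

theorem baseChange_rat_eq :
    (W.map (Int.castRingHom ℚ)).baseChange Qbar = W.baseChange Qbar := by
  rw [WeierstrassCurve.baseChange, WeierstrassCurve.baseChange, WeierstrassCurve.map_map]
  exact congrArg W.map (RingHom.ext_int _ _)

/-- the identification `((W_ℚ)⁄ℚ̄).Point ≃+ (W⁄ℚ̄).Point` is Galois equivariant. -/
theorem pointCongr_rat_smul (σ : Qbar ≃ₐ[ℚ] Qbar)
    (P : ((W.map (Int.castRingHom ℚ)).toAffine⁄Qbar).Point) :
    pointCongr (baseChange_rat_eq W) (σ • P) = σ • pointCongr (baseChange_rat_eq W) P :=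
  pointCongr_map (W₁ := (W.map (Int.castRingHom ℚ)).toAffine) (W₂ := W.toAffine)
    (baseChange_rat_eq W) (baseChange_rat_eq W) σ.toAlgHom σ.toAlgHom (fun _ => rfl) P

/-- **EC-FROB-1, `ℚ`-model form.** -/
theorem frobenius_quadratic_torsion_rat (hgood : W.IsGoodPrimeFor l) (m : ℕ) (hlm : ¬ l ∣ m)
    (A : ValuationSubring Qbar) (hA : A.LiesOverPrime l)
    [DecidableEq (IsLocalRing.ResidueField A)] [ExpChar (IsLocalRing.ResidueField A) l]
    (hF : FrobQuad W l (IsLocalRing.ResidueField A))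
    (σ : Qbar ≃ₐ[ℚ] Qbar) (hσ : A.IsFrobeniusAt σ l)
    (P : ((W.map (Int.castRingHom ℚ)).toAffine⁄Qbar).Point) (hP : m • P = 0) :
    σ • σ • P - W.apOfModel l • σ • P + (l : ℤ) • P = 0 := by
  apply (pointCongr (baseChange_rat_eq W)).injective
  rw [map_zero, map_add, map_sub, map_zsmul, map_zsmul, pointCongr_rat_smul, pointCongr_rat_smul]
  apply frobenius_quadratic_torsion W l hgood m hlm A hA hF σ hσ
  rw [← map_nsmul, hP, map_zero]

end Fermat.Agent.GE.E6
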