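/-
GATE-L-S58 / GE/E6 (helper55): `FrobQuad W l L` (EC-FROB-0 on the base change `W⁄L` of the integral
model) from EC-FROB-0 for the reduction `W.reductionMod l : WeierstrassCurve (ZMod l)` base changed
to a `ZMod l`-algebra `L`.
-/
import Mathlib
import Fermat.Agent.GE.E6.Final
import Fermat.Agent.GE.E6.PointCongr

set_option autoImplicit false

namespace Fermat.Agent.GE.E6

open WeierstrassCurve WeierstrassCurve.Affine

variable (W : WeierstrassCurve ℤ) (l : ℕ)

theorem baseChange_reductionMod_eq (L : Type*) [Field L] [Algebra (ZMod l) L] :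
    (W.reductionMod l).baseChange L = W.baseChange L := by
  rw [WeierstrassCurve.reductionMod, WeierstrassCurve.baseChange, WeierstrassCurve.baseChange,
    WeierstrassCurve.map_map]
  exact congrArg W.map (RingHom.ext_int _ _)

theorem apOfModel_eq [NeZero l] :
    W.apOfModel l = (l : ℤ) + 1 - (Nat.card (W.reductionMod l).toAffine.Point : ℤ) := by
  unfold WeierstrassCurve.apOfModel WeierstrassCurve.traceOfFrobenius WeierstrassCurve.card
  rw [Nat.card_eq_fintype_card, ZMod.card]

/-- **bridge**: EC-FROB-0 for `(W.reductionMod l)⁄L` with a `ZMod l`-algebra endomorphism `φ`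
acting as `x ↦ x ^ l` gives `FrobQuad W l L`. -/
theorem frobQuad_of_zmod (L : Type*) [Field L] [DecidableEq L] [Algebra (ZMod l) L]
    [ExpChar L l] (φ : L →ₐ[ZMod l] L) (hφ : ∀ x, φ x = x ^ l)
    (h0 : ∀ P : ((W.reductionMod l).toAffine⁄L).Point,
      Point.map (W' := (W.reductionMod l).toAffine) φ
          (Point.map (W' := (W.reductionMod l).toAffine) φ P) -
        W.apOfModel l • Point.map (W' := (W.reductionMod l).toAffine) φ P + (l : ℤ) • P = 0) :
    FrobQuad W l L := by
  intro P
  set e := pointCongr (baseChange_reductionMod_eq W l L) with he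
  have hmap : ∀ Q : ((W.reductionMod l).toAffine⁄L).Point,
      e (Point.map (W' := (W.reductionMod l).toAffine) φ Q) =
        Point.map (W' := W.toAffine) (frobInt L l) (e Q) := fun Q =>
    pointCongr_map (W₁ := (W.reductionMod l).toAffine) (W₂ := W.toAffine)
      (baseChange_reductionMod_eq W l L) (baseChange_reductionMod_eq W l L) φ (frobInt L l)
      (fun x => (hφ x).trans (frobInt_apply L l x).symm) Q
  obtain ⟨Q, rfl⟩ := e.surjective P
  have := congrArg e (h0 Q)
  rw [map_zero, map_add, map_sub, map_zsmul, map_zsmul, hmap, hmap] at this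
  exact this

end Fermat.Agent.GE.E6
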